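import Fermat.Agent.S26.H926.AmpleSpan

/-!
# Row S26, block AMPLE: the glue `alpha_of` (helper926)

`Stmt.Alpha` from the leaves of `AmpleSpec.lean`, `Stmt.CDivOps`, `Stmt.LSDivOps` and the
theorem of the square `Stmt.SquareLS`.
-/

set_option autoImplicit false
universe u

open CategoryTheory CategoryTheory.Limits AlgebraicGeometry NeronModelInfra GoodReductionJacobian

namespace Fermat.Agent.S26.H926

open Fermat.Agent.S26

noncomputable section

namespace Ample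

variable {K : Type u} [Field K]

/-- The symmetric boundary divisor: an effective Cartier divisor `D` with support the
complement of a nonempty affine open `U`, with `[-1]^* D = D`. -/
theorem exists_symm_boundary (hS : FFStalk.{u}) (hN : NegInvol K) (h1 : SymmAffine K)
    (h2 : Boundary K) (hOps : Stmt.CDivOps.{u}) (X : AbVar K) [IsIntegral X.A]
    (hneg : X.negHom (genericPoint X.A) = genericPoint X.A) :
    ∃ (U : X.A.Opens) (D : CDiv X.A), IsAffineOpen U ∧ (∃ a : X.A, a ∈ U) ∧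
      (∀ a : X.A, Eff a (D.gen a)) ∧ (∀ a : X.A, a ∈ U ↔ Triv a (D.gen a)) ∧
      ∀ a : X.A, LS.span1 (ffMap X.negHom hneg (D.gen (X.negHom a))) a = LS.span1 (D.gen a) a := by
  obtain ⟨U, hUaff, hUne, hUsymm⟩ := h1 X
  obtain ⟨D₀, hD₀eff', hD₀U⟩ := h2 X U hUaff hUne
  have hD₀eff : ∀ a : X.A, Eff a (D₀.gen a) := hD₀eff'
  obtain ⟨-, hmul₀, hpb₀⟩ := hOps X.A D₀
  obtain ⟨D₀n, hD₀n⟩ := hpb₀ X.A X.negHom hneg
  obtain ⟨D, hD⟩ := hmul₀ D₀n
  obtain ⟨hinv, hinvF⟩ := hN X hneg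
  -- the local shape of `D`
  have hshape : ∀ a : X.A, LS.span1 (D.gen a) a =
      LS.span1 (D₀.gen a * ffMap X.negHom hneg (D₀.gen (X.negHom a))) a := fun a =>
    (hD a).trans (span1_mul_congr_right _ (hD₀n a))
  have heffn : ∀ a : X.A, Eff a (ffMap X.negHom hneg (D₀.gen (X.negHom a))) := fun a =>
    eff_ffMap hS X.negHom hneg a (hD₀eff (X.negHom a))
  refine ⟨U, D, hUaff, hUne, fun a => ?_, fun a => ?_, fun a => ?_⟩
  · rw [eff_congr (hshape a)]
    exact (hD₀eff a).mul (heffn a)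
  · rw [triv_congr (hshape a), triv_mul_iff (hD₀eff a) (heffn a),
      triv_ffMap_iff hS X.negHom hneg a (hD₀eff (X.negHom a)), ← hD₀U a, ← hD₀U (X.negHom a),
      hUsymm a, and_self]
  · have h3 := hshape (X.negHom a)
    rw [hinv a] at h3
    have h4 := span1_ffMap_congr hS X.negHom hneg a h3
    rw [h4, map_mul, hinvF, hshape a, mul_comm]

/-- The section `h_x` of `I²` attached to a `K`-point `x` by the theorem of the square. -/
theorem exists_square_section (hS : FFStalk.{u}) (hT : TranslGeneric K)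
    (hOps : Stmt.CDivOps.{u}) (hSq : Stmt.SquareLS K) (X : AbVar K) [IsIntegral X.A]
    (U : X.A.Opens) (D D2 : CDiv X.A) (hDeff : ∀ a : X.A, Eff a (D.gen a))
    (hDU : ∀ a : X.A, a ∈ U ↔ Triv a (D.gen a)) (hD2 : CDiv.IsPow D 2 D2) (x : X.Pt) :
    ∃ h : X.A.functionField, h ≠ 0 ∧ ∀ a : X.A, ∃ p : X.A.functionField, Eff a p ∧
      (Triv a p ↔ (X.transl x a ∈ U ∧ X.transl (X.negPt x) a ∈ U)) ∧
      LS.span1 (D2.gen a) a = LS.span1 (h * p) a := by
  have hx := hT X x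
  have hx' := hT X (X.negPt x)
  obtain ⟨-, -, hpb⟩ := hOps X.A D
  obtain ⟨D₁, hD₁⟩ := hpb X.A (X.transl x) hx
  obtain ⟨D₂, hD₂⟩ := hpb X.A (X.transl (X.negPt x)) hx'
  obtain ⟨-, hmul₁, -⟩ := hOps X.A D₁
  obtain ⟨D₃, hD₃⟩ := hmul₁ D₂
  obtain ⟨h, hh, hh'⟩ := hSq X x hx hx' D D₁ D₂ D₃ D2 hD₁ hD₂ hD₃ hD2
  refine ⟨h, hh, fun a => ⟨D₃.gen a, ?_, ?_, hh' a⟩⟩
  · rw [eff_congr ((hD₃ a).trans (span1_mul_congr (hD₁ a) (hD₂ a)))]
    exact (eff_ffMap hS _ hx a (hDeff _)).mul (eff_ffMap hS _ hx' a (hDeff _))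
  · rw [triv_congr ((hD₃ a).trans (span1_mul_congr (hD₁ a) (hD₂ a))),
      triv_mul_iff (eff_ffMap hS _ hx a (hDeff _)) (eff_ffMap hS _ hx' a (hDeff _)),
      triv_ffMap_iff hS _ hx a (hDeff _), triv_ffMap_iff hS _ hx' a (hDeff _),
      ← hDU, ← hDU]

/-- **Block AMPLE, glue.**  `Stmt.Alpha` from the leaves. -/
theorem alpha_of (hS : FFStalk.{u}) (hN : NegInvol K) (hT : TranslGeneric K)
    (h1 : SymmAffine K) (h2 : Boundary K) (h3a : TranslAffine K) (h3b : Cover K)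
    (h4 : Project K) (hOps : Stmt.CDivOps.{u}) (hLO : Stmt.LSDivOps.{u})
    (hSq : Stmt.SquareLS K) : Stmt.Alpha K := by
  intro X _ hneg
  obtain ⟨U, D, hUaff, hUne, hDeff, hDU, hDsymm⟩ := exists_symm_boundary hS hN h1 h2 hOps X hneg
  obtain ⟨hpow, -, -⟩ := hOps X.A D
  obtain ⟨D2, hD2⟩ := hpow 2
  obtain ⟨N, x, hcov⟩ := h3b X U hUne
  have key := exists_square_section hS hT hOps hSq X U D D2 hDeff hDU hD2
  choose h hh0 hh using key
  set w : Fin (N + 1) → X.A.functionField := fun j => h (x j) with hw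
  -- every member of `w` is a section of `I²`
  have hmem : ∀ (a : X.A) (j : Fin (N + 1)), w j ∈ LS.span1 (D2.gen a) a := by
    intro a j
    obtain ⟨p, hp, -, hp2⟩ := hh (x j) a
    rw [hp2]
    obtain ⟨c, hc⟩ := inO_iff.1 hp.inO_inv
    refine mem_span1_iff.2 ⟨c, ?_⟩
    rw [Algebra.smul_def, hc, mul_comm, mul_assoc, mul_inv_cancel₀ hp.ne_zero, mul_one]
  -- where `w j` generates
  have hgen : ∀ (a : X.A) (j : Fin (N + 1)),
      LS.span1 (w j) a = LS.span1 (D2.gen a) a ↔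
        (X.transl (x j) a ∈ U ∧ X.transl (X.negPt (x j)) a ∈ U) := by
    intro a j
    obtain ⟨p, hp, hp1, hp2⟩ := hh (x j) a
    rw [hp2, ← hp1, triv_iff_span1_mul (hh0 (x j)), eq_comm]
  -- `w` is a system with divisor `D2`
  have hwD2 : CDiv.IsOfSystem w D2 := by
    intro a
    apply le_antisymm
    · rw [LS.span, Submodule.span_le]
      rintro _ ⟨j, rfl⟩
      exact hmem a j
    · obtain ⟨j, hj⟩ := hcov a
      rw [← (hgen a j).2 hj]
      exact Submodule.span_mono (Set.singleton_subset_iff.2 ⟨j, rfl⟩)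
  have hGenAt : ∀ (a : X.A) (j : Fin (N + 1)),
      LS.GenAt w a j ↔ (X.transl (x j) a ∈ U ∧ X.transl (X.negPt (x j)) a ∈ U) := by
    intro a j
    rw [← hgen a j, LS.GenAt, hwD2 a]
    constructor
    · rintro ⟨-, h2⟩
      exact h2.symm
    · intro h2
      exact ⟨hh0 (x j), h2.symm⟩
  have hGood : LS.Good w := by
    refine ⟨fun a => ?_, fun j => ?_⟩
    · obtain ⟨j, hj⟩ := hcov a
      exact ⟨j, (hGenAt a j).2 hj⟩
    · obtain ⟨V, hV, hV'⟩ := h3a X U hUaff (x j)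
      exact ⟨V, hV, fun a => (hV' a).trans (hGenAt a j).symm⟩
  obtain ⟨u, huGood, huInd, hudeg, husame⟩ := h4 X N w hGood
  refine ⟨u, huGood, huInd, hudeg, 1, one_ne_zero, fun a => ?_⟩
  -- symmetry
  have huD2 : CDiv.IsOfSystem u D2 := fun a => (husame a).trans (hwD2 a)
  obtain ⟨-, -, hpb2⟩ := hOps X.A D2
  obtain ⟨D2n, hD2n⟩ := hpb2 X.A X.negHom hneg
  have h5 := (hLO X.A X.dim u D2 huD2).2 X.A X.negHom hneg D2n hD2n a
  simp only [one_mul]
  rw [h5, huD2 a, hD2n a, hD2 a,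
    span1_ffMap_congr hS X.negHom hneg a (hD2 (X.negHom a)), map_pow]
  exact span1_pow_congr (hDsymm a) 2

end Ample

end

end Fermat.Agent.S26.H926
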