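import Fermat.Agent.S26.SpecPic

/-!
# Row S26, block AMPLE (`Stmt.Alpha`): leaf statements (helper926)

`Stmt.Alpha` asks for a symmetric good system of `g + 1` rational functions on an abelian
variety `A` of dimension `g` with algebraically independent affine coordinates and finite
degree (a finite morphism `A → P^g` given by a symmetric line bundle).

Route (Mumford, Abelian Varieties §6, "every abelian variety is projective"):

* `SymmAffine` : a nonempty affine open `U` with `-U = U`;
* `Boundary`   : an effective Cartier divisor `D₀` with support `A ∖ U`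
                 (fractional ideal `I₀ ⊇ O`, `I₀ = O` exactly on `U`);
  put `D := D₀ · [-1]^* D₀` (symmetric, same support);
* theorem of the square (`Stmt.SquareLS`): for every `K`-point `x` there is `h_x ≠ 0` with
  `h_x · T_x^* I · T_{-x}^* I = I²`;  `h_x` is a section of `I²` whose non-vanishing locus is
  `(U - x) ∩ (U + x)`, an affine open (`TranslAffine`);
* `Cover`      : finitely many `(U - x_j) ∩ (U + x_j)` cover `A`; so `w := (h_{x_j})_j` is a
                 good system with divisor `D²`;
* `Project`    : a good system on `A` can be replaced by `g + 1` linear combinations of its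
                 members (graded Noether normalisation), which form a good system of the same
                 sheaf with independent coordinates and finite degree.

The glue `alpha_of` (file `AmpleTop.lean`) is proved from these leaves, `Stmt.CDivOps`,
`Stmt.LSDivOps`, `Stmt.SquareLS` and two general facts on function fields (`FFStalk`,
`NegInvol`).  Only definitions here.
-/

set_option autoImplicit false
universe u

open CategoryTheory CategoryTheory.Limits AlgebraicGeometry NeronModelInfra GoodReductionJacobian

namespace Fermat.Agent.S26.H926

open Fermat.Agent.S26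

noncomputable section

namespace Ample

/-! ## General facts on function fields -/

/-- `f` is regular at `x`: it lies in the image of the local ring at `x`. -/
def InO {X : Scheme.{u}} [IsIntegral X] (x : X) (f : X.functionField) : Prop :=
  f ∈ LS.span1 (1 : X.functionField) x

/-- `f` is a unit of the local ring at `x`. -/
def Triv {X : Scheme.{u}} [IsIntegral X] (x : X) (f : X.functionField) : Prop :=
  LS.span1 f x = LS.span1 (1 : X.functionField) x

/-- FF-STALK: the map of function fields is compatible with the (local) maps of local rings:
it maps functions regular at `φ x` to functions regular at `x`, and a function regular at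
`φ x` whose pull-back is a unit at `x` is a unit at `φ x`. -/
def FFStalk : Prop :=
  ∀ (X Y : Scheme.{u}) [IsIntegral X] [IsIntegral Y] (φ : X ⟶ Y)
    (h : φ (genericPoint X) = genericPoint Y) (x : X) (f : Y.functionField),
    InO (φ x) f → (InO x (ffMap φ h f) ∧ (Triv x (ffMap φ h f) → Triv (φ x) f))

variable (K : Type u) [Field K] [IsAlgClosed K]

/-- NEG-INVOL: `[-1]` is an involution, on points and on the function field. -/
def NegInvol : Prop :=
  ∀ (X : AbVar K) [IsIntegral X.A]
    (hneg : X.negHom (genericPoint X.A) = genericPoint X.A),
    (∀ a : X.A, X.negHom (X.negHom a) = a) ∧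
      ∀ f : X.A.functionField, ffMap X.negHom hneg (ffMap X.negHom hneg f) = f

/-- TRANSL-GENERIC: translations preserve the generic point. -/
def TranslGeneric : Prop :=
  ∀ (X : AbVar K) [IsIntegral X.A] (x : X.Pt),
    X.transl x (genericPoint X.A) = genericPoint X.A

/-! ## The leaves of block AMPLE -/

/-- AM1: a nonempty symmetric affine open. -/
def SymmAffine : Prop :=
  ∀ (X : AbVar K) [IsIntegral X.A],
    ∃ U : X.A.Opens, IsAffineOpen U ∧ (∃ a : X.A, a ∈ U) ∧ ∀ a : X.A, X.negHom a ∈ U ↔ a ∈ U

/-- AM2: the complement of a nonempty affine open is the support of an effective Cartier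
divisor: there is an invertible fractional ideal sheaf `I ⊇ O` with `I_a = O_a ⇔ a ∈ U`.
(Needs: the local rings of `A` are factorial, the complement of an affine open has pure
codimension one.) -/
def Boundary : Prop :=
  ∀ (X : AbVar K) [IsIntegral X.A] (U : X.A.Opens), IsAffineOpen U → (∃ a : X.A, a ∈ U) →
    ∃ D : CDiv X.A, (∀ a : X.A, (1 : X.A.functionField) ∈ LS.span1 (D.gen a) a) ∧
      ∀ a : X.A, a ∈ U ↔ Triv a (D.gen a)

/-- AM3a: for an affine open `U` and a `K`-point `x`, `(U - x) ∩ (U + x)` is an affine
open. -/
def TranslAffine : Prop :=
  ∀ (X : AbVar K) [IsIntegral X.A] (U : X.A.Opens), IsAffineOpen U → ∀ x : X.Pt,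
    ∃ V : X.A.Opens, IsAffineOpen V ∧
      ∀ a : X.A, a ∈ V ↔ (X.transl x a ∈ U ∧ X.transl (X.negPt x) a ∈ U)

/-- AM3b: finitely many `(U - x) ∩ (U + x)` cover `A`. -/
def Cover : Prop :=
  ∀ (X : AbVar K) [IsIntegral X.A] (U : X.A.Opens), (∃ a : X.A, a ∈ U) →
    ∃ (N : ℕ) (x : Fin (N + 1) → X.Pt),
      ∀ a : X.A, ∃ j, X.transl (x j) a ∈ U ∧ X.transl (X.negPt (x j)) a ∈ U

/-- AM4: a good system on an abelian variety of dimension `g` can be projected to `g + 1`
members: there is a good system of `g + 1` sections of the same sheaf with algebraically
independent affine coordinates and finite degree. -/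
def Project : Prop :=
  ∀ (X : AbVar K) [IsIntegral X.A] (N : ℕ) (w : Fin (N + 1) → X.A.functionField),
    LS.Good w → ∃ u : Fin (X.dim + 1) → X.A.functionField,
      LS.Good u ∧ LS.Indep X.str u ∧ 0 < LS.deg X.str u ∧ LS.Same u w

end Ample

end

end Fermat.Agent.S26.H926
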