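import Fermat.Agent.S26.H926.AmpleTop
import Fermat.Agent.S26.Ample.Top
import Fermat.Agent.S26.H164.LSDiv
import Fermat.Agent.S26.H126.GroupCalc
import Fermat.Agent.S26.FF.H660.FFRank

/-!
# Row S26, block AMPLE: small leaves and adapters between the two interfaces (helper926)

* PROVED outright: `ffStalk : Ample.FFStalk`, `ffStalkMap : Ample.Stmt.FFStalkMap`,
  `negInvol : Ample.NegInvol K`, `translGeneric : Ample.TranslGeneric K`,
  `translIso : Ample.Stmt.TranslIso K`; functoriality of `ffMap` (`ffMap_id`, `ffMap_comp`).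
* adapters between `Fermat.Agent.S26.Ample.Stmt.*` (helper752) and
  `Fermat.Agent.S26.H926.Ample.*` (helper926).
* `alpha_of_mixed` : `Stmt.Alpha` from helper752's leaves with A2 in the WEAK form
  `H926.Ample.Boundary` (no canonicity).
-/

set_option autoImplicit false
universe u

open CategoryTheory CategoryTheory.Limits AlgebraicGeometry NeronModelInfra GoodReductionJacobian

namespace Fermat.Agent.S26.H926

open Fermat.Agent.S26

noncomputable section

namespace Ample

/-! ## Functoriality of `ffMap` -/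

section FF

variable {X Y Z : Scheme.{u}} [IsIntegral X] [IsIntegral Y] [IsIntegral Z]

theorem ffMap_congr {φ φ' : X ⟶ Y} (e : φ = φ') (h : φ (genericPoint X) = genericPoint Y)
    (h' : φ' (genericPoint X) = genericPoint Y) (f : Y.functionField) :
    ffMap φ h f = ffMap φ' h' f := by
  subst e
  rfl

theorem exists_germ_eq_ff (f : X.functionField) :
    ∃ (V : X.Opens) (hV : genericPoint X ∈ V) (s : Γ(X, V)),
      X.presheaf.germ V (genericPoint X) hV s = f :=
  X.presheaf.exists_germ_eq f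

theorem ffMap_id (h : (𝟙 X : X ⟶ X) (genericPoint X) = genericPoint X)
    (f : X.functionField) : ffMap (𝟙 X) h f = f := by
  obtain ⟨V, hV, s, rfl⟩ := exists_germ_eq_ff f
  rw [FF.H660.ffMap_germ660 (𝟙 X) h V hV s]
  rfl

theorem ffMap_comp (φ : X ⟶ Y) (ψ : Y ⟶ Z) (hφ : φ (genericPoint X) = genericPoint Y)
    (hψ : ψ (genericPoint Y) = genericPoint Z)
    (hφψ : (φ ≫ ψ) (genericPoint X) = genericPoint Z) (f : Z.functionField) :
    ffMap (φ ≫ ψ) hφψ f = ffMap φ hφ (ffMap ψ hψ f) := by
  obtain ⟨V, hV, s, rfl⟩ := exists_germ_eq_ff f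
  rw [FF.H660.ffMap_germ660 (φ ≫ ψ) hφψ V hV s, FF.H660.ffMap_germ660 ψ hψ V hV s,
    FF.H660.ffMap_germ660 φ hφ (ψ ⁻¹ᵁ V) (show ψ (genericPoint Y) ∈ V from hψ ▸ hV)]
  rfl

/-- An isomorphism of integral schemes preserves the generic point. -/
theorem iso_genericPoint (σ : X ⟶ Y) [IsIso σ] : σ (genericPoint X) = genericPoint Y :=
  genericPoint_eq_of_isOpenImmersion σ

end FF

/-! ## The small leaves, proved -/

theorem ffStalkMap : Fermat.Agent.S26.Ample.Stmt.FFStalkMap.{u} := by
  intro X Y _ _ φ h x r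
  exact H164.ffMap_algebraMap φ h x r

theorem ffStalk : FFStalk.{u} := by
  intro X Y _ _ φ h x f hf
  obtain ⟨s, rfl⟩ := inO_iff.1 hf
  have key := H164.ffMap_algebraMap φ h x s
  refine ⟨inO_iff.2 ⟨φ.stalkMap x s, key.symm⟩, fun ht => ?_⟩
  rw [key] at ht
  obtain ⟨c, hc⟩ := eff_iff.1 (triv_iff.1 ht).2
  rw [← map_mul] at hc
  have hc1 : c * φ.stalkMap x s = 1 :=
    IsFractionRing.injective (X.presheaf.stalk x) X.functionField (by rw [hc, map_one])
  have hu : IsUnit ((φ.stalkMap x).hom s) := IsUnit.of_mul_eq_one _ (by rw [mul_comm]; exact hc1)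
  have hs : IsUnit s := (isUnit_map_iff (φ.stalkMap x).hom s).1 hu
  obtain ⟨u, rfl⟩ := hs
  refine triv_iff.2 ⟨inO_iff.2 ⟨u, rfl⟩, eff_iff.2 ⟨((u⁻¹ : _ˣ) : _), ?_⟩⟩
  rw [← map_mul, Units.inv_mul, map_one]

variable (K : Type u) [Field K]

theorem negHom_eq (X : AbVar K) : X.negHom = H126.negHom X.law := rfl

theorem transl_eq (X : AbVar K) (x : X.Pt) : X.transl x = H126.transl X.law x := rfl

instance negHom_isIso' (X : AbVar K) : IsIso X.negHom := H126.negHom_isIso X.law

instance transl_isIso' (X : AbVar K) (x : X.Pt) : IsIso (X.transl x) :=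
  H126.transl_isIso X.law x

theorem negInvol : NegInvol K := by
  intro X _ hneg
  have h2 : X.negHom ≫ X.negHom = 𝟙 X.A := H126.negHom_negHom X.law
  refine ⟨fun a => ?_, fun f => ?_⟩
  · have := congrArg (fun φ : X.A ⟶ X.A => φ a) h2
    simpa using this
  · have hid : (𝟙 X.A : X.A ⟶ X.A) (genericPoint X.A) = genericPoint X.A := by simp
    have hcomp : (X.negHom ≫ X.negHom) (genericPoint X.A) = genericPoint X.A := by
      rw [h2]; exact hid
    rw [← ffMap_comp X.negHom X.negHom hneg hneg hcomp, ffMap_congr h2 hcomp hid, ffMap_id]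

theorem translGeneric : TranslGeneric K := by
  intro X _ x
  exact iso_genericPoint _

theorem translIso : Fermat.Agent.S26.Ample.Stmt.TranslIso K := by
  intro X _
  exact ⟨inferInstance, fun x => ⟨inferInstance, iso_genericPoint _⟩⟩

/-! ## Adapters -/

variable {K}

theorem symmAffine_of (h : Fermat.Agent.S26.Ample.Stmt.AffSym K) : SymmAffine K := h

theorem affSym_of (h : SymmAffine K) : Fermat.Agent.S26.Ample.Stmt.AffSym K := h

theorem translAffine_of (h : Fermat.Agent.S26.Ample.Stmt.TranslAffine K) : TranslAffine K := h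

theorem project_of (h : Fermat.Agent.S26.Ample.Stmt.Project K) : Project K := by
  intro X _ N w hw
  obtain ⟨u, h1, h2, h3, h4⟩ := h X N w hw
  exact ⟨u, h1, h3, h4, h2⟩

theorem project_to (h : Project K) : Fermat.Agent.S26.Ample.Stmt.Project K := by
  intro X _ N w hw
  obtain ⟨u, h1, h2, h3, h4⟩ := h X N w hw
  exact ⟨u, h1, h4, h2, h3⟩

theorem boundary_of_complDiv (h : Fermat.Agent.S26.Ample.Stmt.ComplDiv K) : Boundary K := by
  intro X _ U hU hne
  obtain ⟨D, h1, h2, -⟩ := h X U hU hne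
  exact ⟨D, h1, h2⟩

/-! ## Affine opens of an abelian variety -/

section Affine

variable (X : AbVar K)

theorem isProper_str : IsProper X.str := X.bundle.proper

/-- Intersections of affine opens of an abelian variety are affine (`A` is separated). -/
theorem isAffineOpen_inf {U V : X.A.Opens} (hU : IsAffineOpen U) (hV : IsAffineOpen V) :
    IsAffineOpen (U ⊓ V) := by
  have := isProper_str X
  have h : IsAffineHom (pullback.diagonal X.str) := inferInstance
  exact isAffineHom_diagonal_iff.mp h ⊤ (isAffineOpen_top _) U (by simp) V (by simp) hU hV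

theorem symmAffine : SymmAffine K := by
  intro X _
  obtain ⟨_, ⟨V, hV, rfl⟩, hx, -⟩ :=
    X.A.isBasis_affineOpens.exists_subset_of_mem_open (Set.mem_univ (genericPoint X.A))
      isOpen_univ
  have hneg : X.negHom (genericPoint X.A) = genericPoint X.A := iso_genericPoint _
  refine ⟨V ⊓ X.negHom ⁻¹ᵁ V, isAffineOpen_inf X hV (hV.preimage X.negHom),
    ⟨genericPoint X.A, hx, ?_⟩, fun a => ?_⟩
  · show X.negHom (genericPoint X.A) ∈ V
    rw [hneg]
    exact hx
  · have hinv := ((negInvol K) X hneg).1 a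
    constructor
    · rintro ⟨h1, h2⟩
      refine ⟨?_, h1⟩
      have h3 : X.negHom (X.negHom a) ∈ V := h2
      rwa [hinv] at h3
    · rintro ⟨h1, h2⟩
      refine ⟨h2, ?_⟩
      show X.negHom (X.negHom a) ∈ V
      rwa [hinv]

theorem translAffine : TranslAffine K := by
  intro X _ U hU x
  refine ⟨X.transl x ⁻¹ᵁ U ⊓ X.transl (X.negPt x) ⁻¹ᵁ U,
    isAffineOpen_inf X (hU.preimage _) (hU.preimage _), fun a => Iff.rfl⟩

/-- Compactness: a pointwise cover by the sets `(U - x) ∩ (U + x)` has a finite subcover. -/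
theorem cover_of (h : Fermat.Agent.S26.Ample.Stmt.Cover K) : Cover K := by
  intro X _ U hne
  have := isProper_str X
  have : CompactSpace X.A := QuasiCompact.compactSpace_of_compactSpace X.str
  let W : X.Pt → X.A.Opens := fun x => X.transl x ⁻¹ᵁ U ⊓ X.transl (X.negPt x) ⁻¹ᵁ U
  have hcov : (Set.univ : Set X.A) ⊆ ⋃ x, (W x : Set X.A) := by
    intro a _
    obtain ⟨x, hx⟩ := h X U hne a
    exact Set.mem_iUnion.2 ⟨x, hx⟩
  obtain ⟨s, hs⟩ := isCompact_univ.elim_finite_subcover (fun x => (W x : Set X.A))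
    (fun x => (W x).isOpen) hcov
  -- enumerate `insert x₀ s`
  obtain ⟨x₀, -⟩ := h X U hne (genericPoint X.A)
  classical
  let s' : Finset X.Pt := insert x₀ s
  have hpos : s'.card ≠ 0 := Finset.card_ne_zero.2 ⟨x₀, Finset.mem_insert_self _ _⟩
  obtain ⟨N, hN⟩ := Nat.exists_eq_succ_of_ne_zero hpos
  let e : Fin (N + 1) ≃ s' := (Fin.castOrderIso hN.symm).toEquiv.trans s'.equivFin.symm
  refine ⟨N, fun j => (e j).1, fun a => ?_⟩
  obtain ⟨x, hx, hax⟩ := Set.mem_iUnion₂.1 (hs (Set.mem_univ a))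
  have hx' : x ∈ s' := Finset.mem_insert_of_mem hx
  refine ⟨e.symm ⟨x, hx'⟩, ?_⟩
  simp only [Equiv.apply_symm_apply]
  exact hax

end Affine

/-! ## The mixed glue -/

/-- **Block AMPLE** from the geometric leaves only: `Cover` (pointwise), `Boundary` (weak form
of A2, no canonicity), `Project`, and the row inputs `CDivOps`, `LSDivOps`, `SquareLS`. -/
theorem alpha_of_mixed (hcov : Fermat.Agent.S26.Ample.Stmt.Cover K) (h2 : Boundary K)
    (h4 : Fermat.Agent.S26.Ample.Stmt.Project K) (hOps : Stmt.CDivOps.{u})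
    (hLO : Stmt.LSDivOps.{u}) (hSq : Stmt.SquareLS K) : Stmt.Alpha K :=
  alpha_of ffStalk (negInvol K) (translGeneric K) symmAffine h2 translAffine (cover_of hcov)
    (project_of h4) hOps hLO hSq

/-- The same with `CDivOps`, `LSDivOps` discharged (helper164). -/
theorem alpha_of_geometric (hcov : Fermat.Agent.S26.Ample.Stmt.Cover K) (h2 : Boundary K)
    (h4 : Fermat.Agent.S26.Ample.Stmt.Project K) (hSq : Stmt.SquareLS K) : Stmt.Alpha K :=
  alpha_of_mixed hcov h2 h4 H164.cDivOps H164.lsDivOps hSq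

end Ample

end

end Fermat.Agent.S26.H926
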