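import Fermat.Agent.S26.H926.AmpleSpec
import Fermat.Agent.S26.TopPic2

/-!
# Row S26, block AMPLE: calculus of principal fractional ideals at a point (helper926)

Pure algebra in the function field `K(X)` over the local ring `O_x`:
`InO x f` (`f ∈ O_x`), `Eff x f` (`f⁻¹ ∈ O_x`), `Triv x f` (`f ∈ O_xˣ`), their behaviour under
products, and (given `FFStalk`) under pull-back of rational functions.
-/

set_option autoImplicit false
universe u

open CategoryTheory CategoryTheory.Limits AlgebraicGeometry NeronModelInfra GoodReductionJacobian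

namespace Fermat.Agent.S26.H926

open Fermat.Agent.S26

noncomputable section

namespace Ample

section Span

variable {X : Scheme.{u}} [IsIntegral X] (x : X)

/-- `f` has at most poles at `x`: `1 ∈ O_x · f`, i.e. `f⁻¹ ∈ O_x`. -/
def Eff (f : X.functionField) : Prop := (1 : X.functionField) ∈ LS.span1 f x

variable {x}

theorem mem_span1_iff {f g : X.functionField} :
    g ∈ LS.span1 f x ↔ ∃ c : X.presheaf.stalk x, c • f = g :=
  Submodule.mem_span_singleton

theorem span1_le_iff {f g : X.functionField} :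
    LS.span1 g x ≤ LS.span1 f x ↔ g ∈ LS.span1 f x :=
  Submodule.span_singleton_le_iff_mem _ _

theorem span1_eq_iff {f g : X.functionField} :
    LS.span1 f x = LS.span1 g x ↔ f ∈ LS.span1 g x ∧ g ∈ LS.span1 f x := by
  rw [le_antisymm_iff, span1_le_iff, span1_le_iff]

theorem self_mem_span1 (f : X.functionField) : f ∈ LS.span1 f x :=
  Submodule.mem_span_singleton_self f

theorem inO_iff {f : X.functionField} :
    InO x f ↔ ∃ c : X.presheaf.stalk x, algebraMap _ X.functionField c = f := by
  rw [InO, mem_span1_iff]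
  simp only [Algebra.smul_def, mul_one]

theorem eff_iff {f : X.functionField} :
    Eff x f ↔ ∃ c : X.presheaf.stalk x, algebraMap _ X.functionField c * f = 1 := by
  rw [Eff, mem_span1_iff]
  simp only [Algebra.smul_def]

theorem triv_iff {f : X.functionField} : Triv x f ↔ InO x f ∧ Eff x f := by
  rw [Triv, span1_eq_iff]
  rfl

theorem Eff.ne_zero {f : X.functionField} (h : Eff x f) : f ≠ 0 := by
  rintro rfl
  obtain ⟨c, hc⟩ := eff_iff.1 h
  rw [mul_zero] at hc
  exact zero_ne_one hc

theorem Eff.inO_inv {f : X.functionField} (h : Eff x f) : InO x f⁻¹ := by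
  obtain ⟨c, hc⟩ := eff_iff.1 h
  refine inO_iff.2 ⟨c, ?_⟩
  exact eq_inv_of_mul_eq_one_left hc

theorem eff_of_inO_inv {f : X.functionField} (hf : f ≠ 0) (h : InO x f⁻¹) : Eff x f := by
  obtain ⟨c, hc⟩ := inO_iff.1 h
  exact eff_iff.2 ⟨c, by rw [hc, inv_mul_cancel₀ hf]⟩

theorem inO_one : InO x (1 : X.functionField) := self_mem_span1 1

theorem eff_one : Eff x (1 : X.functionField) := self_mem_span1 1

theorem triv_one : Triv x (1 : X.functionField) := rfl

theorem InO.mul {f g : X.functionField} (hf : InO x f) (hg : InO x g) : InO x (f * g) := by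
  obtain ⟨c, rfl⟩ := inO_iff.1 hf
  obtain ⟨d, rfl⟩ := inO_iff.1 hg
  exact inO_iff.2 ⟨c * d, map_mul _ _ _⟩

theorem Eff.mul {f g : X.functionField} (hf : Eff x f) (hg : Eff x g) : Eff x (f * g) := by
  obtain ⟨c, hc⟩ := eff_iff.1 hf
  obtain ⟨d, hd⟩ := eff_iff.1 hg
  refine eff_iff.2 ⟨c * d, ?_⟩
  rw [map_mul, mul_mul_mul_comm, hc, hd, mul_one]

theorem Triv.mul {f g : X.functionField} (hf : Triv x f) (hg : Triv x g) : Triv x (f * g) :=
  triv_iff.2 ⟨(triv_iff.1 hf).1.mul (triv_iff.1 hg).1, (triv_iff.1 hf).2.mul (triv_iff.1 hg).2⟩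

theorem Triv.inv {f : X.functionField} (hf : Triv x f) : Triv x f⁻¹ := by
  obtain ⟨h1, h2⟩ := triv_iff.1 hf
  refine triv_iff.2 ⟨h2.inO_inv, eff_of_inO_inv (inv_ne_zero h2.ne_zero) ?_⟩
  rwa [inv_inv]

/-- For functions with at most poles, a product is a unit iff both factors are. -/
theorem triv_mul_iff {f g : X.functionField} (hf : Eff x f) (hg : Eff x g) :
    Triv x (f * g) ↔ Triv x f ∧ Triv x g := by
  constructor
  · intro h
    obtain ⟨h1, -⟩ := triv_iff.1 h
    constructor
    · refine triv_iff.2 ⟨?_, hf⟩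
      have := h1.mul hg.inO_inv
      rwa [mul_assoc, mul_inv_cancel₀ hg.ne_zero, mul_one] at this
    · refine triv_iff.2 ⟨?_, hg⟩
      have := h1.mul hf.inO_inv
      rwa [mul_comm f g, mul_assoc, mul_inv_cancel₀ hf.ne_zero, mul_one] at this
  · rintro ⟨h1, h2⟩
    exact h1.mul h2

theorem eff_congr {f f' : X.functionField} (h : LS.span1 f x = LS.span1 f' x) :
    Eff x f ↔ Eff x f' := by
  rw [Eff, Eff, h]

theorem triv_congr {f f' : X.functionField} (h : LS.span1 f x = LS.span1 f' x) :
    Triv x f ↔ Triv x f' := by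
  rw [Triv, Triv, h]

theorem span1_mul_congr_right {f f' : X.functionField} (g : X.functionField)
    (h : LS.span1 f x = LS.span1 f' x) : LS.span1 (g * f) x = LS.span1 (g * f') x := by
  rw [LS.span1_mul, LS.span1_mul, h]

theorem span1_mul_congr_left {f f' : X.functionField} (g : X.functionField)
    (h : LS.span1 f x = LS.span1 f' x) : LS.span1 (f * g) x = LS.span1 (f' * g) x := by
  rw [mul_comm f g, mul_comm f' g]
  exact span1_mul_congr_right g h

theorem span1_mul_congr {f f' g g' : X.functionField}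
    (h : LS.span1 f x = LS.span1 f' x) (h' : LS.span1 g x = LS.span1 g' x) :
    LS.span1 (f * g) x = LS.span1 (f' * g') x :=
  (span1_mul_congr_left g h).trans (span1_mul_congr_right f' h')

theorem span1_pow_congr {f f' : X.functionField} (h : LS.span1 f x = LS.span1 f' x) (r : ℕ) :
    LS.span1 (f ^ r) x = LS.span1 (f' ^ r) x := by
  induction r with
  | zero => simp only [pow_zero]
  | succ r ih =>
    rw [pow_succ, pow_succ]
    exact span1_mul_congr ih h

/-- Cancellation of a nonzero factor. -/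
theorem span1_mul_cancel {f f' g : X.functionField} (hg : g ≠ 0)
    (h : LS.span1 (g * f) x = LS.span1 (g * f') x) : LS.span1 f x = LS.span1 f' x := by
  rw [LS.span1_mul, LS.span1_mul] at h
  exact LS.map_mulL_injective x hg h

theorem triv_iff_span1_mul {h p : X.functionField} (hh : h ≠ 0) :
    Triv x p ↔ LS.span1 (h * p) x = LS.span1 h x := by
  constructor
  · intro hp
    have := span1_mul_congr_right (x := x) h hp
    rwa [mul_one] at this
  · intro hp
    refine span1_mul_cancel hh ?_
    rwa [mul_one]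

end Span

section Pullback

variable {X Y : Scheme.{u}} [IsIntegral X] [IsIntegral Y] (hS : FFStalk.{u})
  (φ : X ⟶ Y) (h : φ (genericPoint X) = genericPoint Y) (x : X)

include hS

theorem inO_ffMap {f : Y.functionField} (hf : InO (φ x) f) : InO x (ffMap φ h f) :=
  (hS X Y φ h x f hf).1

theorem eff_ffMap {f : Y.functionField} (hf : Eff (φ x) f) : Eff x (ffMap φ h f) := by
  refine eff_of_inO_inv ((map_ne_zero _).2 hf.ne_zero) ?_
  rw [← map_inv₀]
  exact inO_ffMap hS φ h x hf.inO_inv

theorem triv_ffMap {f : Y.functionField} (hf : Triv (φ x) f) : Triv x (ffMap φ h f) :=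
  triv_iff.2 ⟨inO_ffMap hS φ h x (triv_iff.1 hf).1, eff_ffMap hS φ h x (triv_iff.1 hf).2⟩

/-- For a function with at most poles at `φ x`: its pull-back is a unit at `x` iff it is a
unit at `φ x`. -/
theorem triv_ffMap_iff {f : Y.functionField} (hf : Eff (φ x) f) :
    Triv x (ffMap φ h f) ↔ Triv (φ x) f := by
  refine ⟨fun ht => ?_, triv_ffMap hS φ h x⟩
  have h1 : Triv x (ffMap φ h f⁻¹) := by
    rw [map_inv₀]
    exact ht.inv
  have h2 := (hS X Y φ h x f⁻¹ hf.inO_inv).2 h1
  have := h2.inv
  rwa [inv_inv] at this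

theorem mem_span1_ffMap {f g : Y.functionField} (hg : g ∈ LS.span1 f (φ x)) :
    ffMap φ h g ∈ LS.span1 (ffMap φ h f) x := by
  obtain ⟨c, rfl⟩ := mem_span1_iff.1 hg
  obtain ⟨d, hd⟩ := inO_iff.1 (inO_ffMap hS φ h x (inO_iff.2 ⟨c, rfl⟩))
  refine mem_span1_iff.2 ⟨d, ?_⟩
  rw [Algebra.smul_def, Algebra.smul_def, map_mul, hd]

/-- Pull-back preserves equality of principal fractional ideals. -/
theorem span1_ffMap_congr {f f' : Y.functionField}
    (hf : LS.span1 f (φ x) = LS.span1 f' (φ x)) :
    LS.span1 (ffMap φ h f) x = LS.span1 (ffMap φ h f') x := by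
  obtain ⟨h1, h2⟩ := span1_eq_iff.1 hf
  exact span1_eq_iff.2 ⟨mem_span1_ffMap hS φ h x h1, mem_span1_ffMap hS φ h x h2⟩

end Pullback

end Ample

end

end Fermat.Agent.S26.H926
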