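import Mathlib

/-!
# Row S26, block AMPLE, leaf BOUNDARY: commutative algebra (helper926)

`R` a noetherian domain with fraction field `F`.  For a prime `q` of `R` the local ring
`R_q ⊆ F` is described elementwise: `Reg q f` (`f ∈ R_q`), `IsU q f` (`f ∈ R_qˣ`).

Main result `exists_local_generator`: if `Q` is a prime of height one and all height-one primes
of the localisations of `R` at maximal ideals are principal, then the ideal sheaf of `V(Q)` is
locally principal: every prime `q` has a basic open neighbourhood `D(t)` and `π ∈ F`, `π ≠ 0`,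
with `Q R_q' = π R_q'` for all `q' ∈ D(t)` (where `Q R_q' = R_q'` if `Q ⊄ q'`).
Mathlib only.
-/

set_option autoImplicit false
set_option linter.unusedSectionVars false

namespace Fermat.Agent.S26.H926.Bd

section Alg

variable {R F : Type*} [CommRing R] [IsDomain R] [Field F] [Algebra R F] [IsFractionRing R F]

/-- `f` is regular at the prime `q`: `f ∈ R_q`. -/
def Reg (q : Ideal R) (f : F) : Prop :=
  ∃ r t : R, t ∉ q ∧ f * algebraMap R F t = algebraMap R F r

/-- `f` is a unit at the prime `q`: `f ∈ R_qˣ`. -/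
def IsU (q : Ideal R) (f : F) : Prop :=
  ∃ r t : R, r ∉ q ∧ t ∉ q ∧ f * algebraMap R F t = algebraMap R F r

theorem IsU.reg {q : Ideal R} {f : F} (h : IsU q f) : Reg q f := by
  obtain ⟨r, t, -, ht, e⟩ := h
  exact ⟨r, t, ht, e⟩

theorem Reg.mono {q q' : Ideal R} (h : q' ≤ q) {f : F} (hf : Reg q f) : Reg q' f := by
  obtain ⟨r, t, ht, e⟩ := hf
  exact ⟨r, t, fun h' => ht (h h'), e⟩

theorem IsU.mono {q q' : Ideal R} (h : q' ≤ q) {f : F} (hf : IsU q f) : IsU q' f := by
  obtain ⟨r, t, hr, ht, e⟩ := hf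
  exact ⟨r, t, fun h' => hr (h h'), fun h' => ht (h h'), e⟩

theorem algebraMap_ne_zero_of_notMem {q : Ideal R} {t : R} (ht : t ∉ q) :
    algebraMap R F t ≠ 0 := by
  intro h
  have h0 : t = 0 := IsFractionRing.injective R F (by rw [h, map_zero])
  exact ht (h0 ▸ q.zero_mem)

variable {q : Ideal R} [hq : q.IsPrime]

theorem reg_algebraMap (r : R) : Reg q (algebraMap R F r) :=
  ⟨r, 1, (Ideal.ne_top_iff_one q).1 hq.ne_top, by rw [map_one, mul_one]⟩

theorem reg_zero : Reg q (0 : F) := by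
  have := reg_algebraMap (F := F) (q := q) 0
  rwa [map_zero] at this

theorem reg_one : Reg q (1 : F) := by
  have := reg_algebraMap (F := F) (q := q) 1
  rwa [map_one] at this

theorem Reg.add {f g : F} (hf : Reg q f) (hg : Reg q g) : Reg q (f + g) := by
  obtain ⟨r, t, ht, e⟩ := hf
  obtain ⟨r', t', ht', e'⟩ := hg
  refine ⟨r * t' + r' * t, t * t', fun h => (hq.mem_or_mem h).elim ht ht', ?_⟩
  rw [map_add, map_mul, map_mul, map_mul, ← e, ← e']
  ring

theorem Reg.mul {f g : F} (hf : Reg q f) (hg : Reg q g) : Reg q (f * g) := by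
  obtain ⟨r, t, ht, e⟩ := hf
  obtain ⟨r', t', ht', e'⟩ := hg
  refine ⟨r * r', t * t', fun h => (hq.mem_or_mem h).elim ht ht', ?_⟩
  rw [map_mul, map_mul, ← e, ← e']
  ring

theorem Reg.div {f : F} (hf : Reg q f) {t : R} (ht : t ∉ q) :
    Reg q (f / algebraMap R F t) := by
  obtain ⟨r, t', ht', e⟩ := hf
  refine ⟨r, t' * t, fun h => (hq.mem_or_mem h).elim ht' ht, ?_⟩
  have h0 : algebraMap R F t ≠ 0 := algebraMap_ne_zero_of_notMem ht
  rw [map_mul, ← e]
  field_simp

/-- Whether `f = r / t` is a unit at `q` can be read off from any such presentation. -/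
theorem isU_iff_of_eq {f : F} {r t : R} (ht : t ∉ q)
    (e : f * algebraMap R F t = algebraMap R F r) : IsU q f ↔ r ∉ q := by
  constructor
  · rintro ⟨r', t', hr', ht', e'⟩ hr
    have h1 : algebraMap R F (r * t') = algebraMap R F (r' * t) := by
      rw [map_mul, map_mul, ← e, ← e']
      ring
    have h2 : r * t' = r' * t := IsFractionRing.injective R F h1
    have h3 : r' * t ∈ q := h2 ▸ q.mul_mem_right t' hr
    exact (hq.mem_or_mem h3).elim hr' ht
  · intro hr
    exact ⟨r, t, hr, ht, e⟩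

theorem isU_algebraMap_iff {r : R} : IsU q (algebraMap R F r) ↔ r ∉ q :=
  isU_iff_of_eq (t := 1) ((Ideal.ne_top_iff_one q).1 hq.ne_top) (by rw [map_one, mul_one])

theorem IsU.ne_zero {f : F} (h : IsU q f) : f ≠ 0 := by
  rintro rfl
  obtain ⟨r, t, hr, -, e⟩ := h
  rw [zero_mul] at e
  have h0 : r = 0 := IsFractionRing.injective R F (by rw [← e, map_zero])
  exact hr (h0 ▸ q.zero_mem)

theorem IsU.inv {f : F} (h : IsU q f) : IsU q f⁻¹ := by
  have hf := h.ne_zero
  obtain ⟨r, t, hr, ht, e⟩ := h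
  refine ⟨t, r, ht, hr, ?_⟩
  rw [← e]
  field_simp

theorem isU_iff {f : F} : IsU q f ↔ f ≠ 0 ∧ Reg q f ∧ Reg q f⁻¹ := by
  constructor
  · intro h
    exact ⟨h.ne_zero, h.reg, h.inv.reg⟩
  · rintro ⟨hf, ⟨r, t, ht, e⟩, ⟨r', t', ht', e'⟩⟩
    refine (isU_iff_of_eq ht e).2 fun hr => ?_
    have h1 : algebraMap R F (t * t') = algebraMap R F (r * r') := by
      rw [map_mul, map_mul, ← e, ← e']
      field_simp
    have h2 : t * t' = r * r' := IsFractionRing.injective R F h1
    have h3 : t * t' ∈ q := h2 ▸ q.mul_mem_right r' hr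
    exact (hq.mem_or_mem h3).elim ht ht'

/-- Lemma A: a height-one prime `Q ⊆ q` is principal in `R_q`, if the height-one primes of
`R_q` are principal. -/
theorem exists_generator (Q : Ideal R) [hQp : Q.IsPrime] (hQq : Q ≤ q) (hQ : Q.height = 1)
    (hprin : ∀ P : Ideal (Localization.AtPrime q), P.IsPrime → P.height = 1 →
      Submodule.IsPrincipal P) :
    ∃ π : F, π ≠ 0 ∧ ∀ f : F, (Reg q f ∧ ¬ IsU Q f) ↔ ∃ a : F, Reg q a ∧ f = a * π := by
  classical
  have hd : Disjoint (q.primeCompl : Set R) (Q : Set R) :=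
    Set.disjoint_left.2 fun x hx hxQ => hx (hQq hxQ)
  have hPprime : (Q.map (algebraMap R (Localization.AtPrime q))).IsPrime :=
    IsLocalization.isPrime_of_isPrime_disjoint q.primeCompl _ Q hQp hd
  have hPh : (Q.map (algebraMap R (Localization.AtPrime q))).height = 1 := by
    rw [IsLocalization.height_map_of_disjoint q.primeCompl Q hd, hQ]
  obtain ⟨p₀, hp₀⟩ := (hprin _ hPprime hPh).principal
  obtain ⟨r₀, t₀, rfl⟩ := IsLocalization.exists_mk'_eq q.primeCompl p₀
  have hinj : Function.Injective (algebraMap R (Localization.AtPrime q)) :=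
    IsLocalization.injective _ q.primeCompl_le_nonZeroDivisors
  have hmem : ∀ r : R, algebraMap R (Localization.AtPrime q) r ∈
      Q.map (algebraMap R (Localization.AtPrime q)) ↔ r ∈ Q := by
    intro r
    have := IsLocalization.under_map_of_isPrime_disjoint q.primeCompl
      (Localization.AtPrime q) hQp hd
    constructor
    · intro h
      rw [← this]
      exact h
    · intro h
      exact Ideal.mem_map_of_mem _ h
  have hr₀Q : r₀ ∈ Q := by
    rw [← hmem, hp₀, ← IsLocalization.mk'_spec (Localization.AtPrime q) r₀ t₀]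
    exact Ideal.mul_mem_right _ _ (Submodule.mem_span_singleton_self _)
  have hr₀ : r₀ ≠ 0 := by
    rintro rfl
    rw [IsLocalization.mk'_zero, Submodule.span_zero_singleton] at hp₀
    rw [hp₀, Ideal.height_bot] at hPh
    exact zero_ne_one hPh
  have ht₀q : (t₀ : R) ∉ q := t₀.2
  have ht₀ : algebraMap R F (t₀ : R) ≠ 0 := algebraMap_ne_zero_of_notMem ht₀q
  have hr₀' : algebraMap R F r₀ ≠ 0 := fun h =>
    hr₀ (IsFractionRing.injective R F (by rw [h, map_zero]))
  refine ⟨algebraMap R F r₀ / algebraMap R F (t₀ : R), div_ne_zero hr₀' ht₀, fun f => ?_⟩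
  constructor
  · rintro ⟨⟨r, t, ht, e⟩, hnu⟩
    have htQ : t ∉ Q := fun h => ht (hQq h)
    have hrQ : r ∈ Q := by
      by_contra h
      exact hnu ((isU_iff_of_eq htQ e).2 h)
    have h1 := (hmem r).2 hrQ
    rw [hp₀] at h1
    obtain ⟨s, hs⟩ := Submodule.mem_span_singleton.1 h1
    obtain ⟨r₁, t₁, rfl⟩ := IsLocalization.exists_mk'_eq q.primeCompl s
    rw [smul_eq_mul, ← IsLocalization.mk'_mul, IsLocalization.mk'_eq_iff_eq_mul,
      ← map_mul] at hs
    have h2 : r₁ * r₀ = r * ((t₁ * t₀ : q.primeCompl) : R) := hinj hs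
    have ht₁ : algebraMap R F (t₁ : R) ≠ 0 := algebraMap_ne_zero_of_notMem t₁.2
    have ht' : algebraMap R F t ≠ 0 := algebraMap_ne_zero_of_notMem ht
    refine ⟨algebraMap R F r₁ / algebraMap R F (t * (t₁ : R)),
      (reg_algebraMap r₁).div fun h => (hq.mem_or_mem h).elim ht t₁.2, ?_⟩
    have h3 : algebraMap R F r₁ * algebraMap R F r₀ =
        algebraMap R F r * (algebraMap R F (t₁ : R) * algebraMap R F (t₀ : R)) := by
      rw [← map_mul, ← map_mul, ← map_mul, h2]
      rfl
    have h4 : f = algebraMap R F r / algebraMap R F t := by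
      rw [← e]
      field_simp
    rw [h4, map_mul]
    field_simp
    rw [h3]
    ring
  · rintro ⟨a, ⟨r, t, ht, e⟩, rfl⟩
    have h5 : a * (algebraMap R F r₀ / algebraMap R F (t₀ : R)) * algebraMap R F (t * (t₀ : R)) =
        algebraMap R F (r * r₀) := by
      rw [map_mul, map_mul, ← e]
      field_simp
    have htt : t * (t₀ : R) ∉ q := fun h => (hq.mem_or_mem h).elim ht ht₀q
    refine ⟨⟨r * r₀, t * (t₀ : R), htt, h5⟩, fun hu => ?_⟩
    exact (isU_iff_of_eq (fun h => htt (hQq h)) h5).1 hu (Q.mul_mem_left r hr₀Q)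

/-- Lemma B: spreading out a local generator. -/
theorem exists_spread [IsNoetherianRing R] (Q : Ideal R) [hQp : Q.IsPrime] (hQq : Q ≤ q)
    (π : F) (hπ : ∀ f : F, (Reg q f ∧ ¬ IsU Q f) ↔ ∃ a : F, Reg q a ∧ f = a * π) :
    ∃ t : R, t ∉ q ∧ ∀ q' : Ideal R, q'.IsPrime → t ∉ q' → ∀ f : F,
      (Reg q' f ∧ (Q ≤ q' → ¬ IsU Q f)) ↔ ∃ a : F, Reg q' a ∧ f = a * π := by
  classical
  -- `π` itself
  obtain ⟨⟨r₀, t₀, ht₀, e₀⟩, hπu⟩ := (hπ π).2 ⟨1, reg_one, (one_mul π).symm⟩
  have hr₀Q : r₀ ∈ Q := by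
    by_contra h
    exact hπu ((isU_iff_of_eq (fun h' => ht₀ (hQq h')) e₀).2 h)
  -- the generators of `Q`
  have key : ∀ g ∈ Q, ∃ t : R, t ∉ q ∧ ∃ r : R,
      algebraMap R F g * algebraMap R F t = algebraMap R F r * π := by
    intro g hg
    obtain ⟨a, ⟨r, t, ht, e⟩, ha⟩ := (hπ (algebraMap R F g)).1
      ⟨reg_algebraMap g, fun hu => isU_algebraMap_iff.1 hu hg⟩
    refine ⟨t, ht, r, ?_⟩
    rw [ha, ← e]
    ring
  obtain ⟨G, hG⟩ := (IsNoetherian.noetherian Q : Q.FG)
  have hfin : ∀ G' : Finset R, (∀ g ∈ G', g ∈ Q) → ∃ t : R, t ∉ q ∧ ∀ g ∈ G', ∃ r : R,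
      algebraMap R F g * algebraMap R F t = algebraMap R F r * π := by
    intro G'
    induction G' using Finset.induction_on with
    | empty =>
      intro _
      exact ⟨1, (Ideal.ne_top_iff_one q).1 hq.ne_top, fun g hg => absurd hg (Finset.notMem_empty g)⟩
    | insert g₀ G' _ ih =>
      intro hQ'
      obtain ⟨t', ht', h'⟩ := ih fun g hg => hQ' g (Finset.mem_insert_of_mem hg)
      obtain ⟨t, ht, r, e⟩ := key g₀ (hQ' g₀ (Finset.mem_insert_self _ _))
      refine ⟨t * t', fun h => (hq.mem_or_mem h).elim ht ht', fun g hg => ?_⟩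
      rcases Finset.mem_insert.1 hg with rfl | hg
      · refine ⟨r * t', ?_⟩
        rw [map_mul, map_mul, ← mul_assoc, e]
        ring
      · obtain ⟨r', e'⟩ := h' g hg
        refine ⟨r' * t, ?_⟩
        rw [map_mul, map_mul, mul_comm (algebraMap R F t), ← mul_assoc, e']
        ring
  obtain ⟨t₁, ht₁, h₁⟩ := hfin G fun g hg => by
    rw [← hG]
    exact Submodule.subset_span hg
  have hall : ∀ x ∈ Q, ∃ r : R,
      algebraMap R F x * algebraMap R F t₁ = algebraMap R F r * π := by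
    intro x hx
    rw [← hG] at hx
    induction hx using Submodule.span_induction with
    | mem x hx => exact h₁ x hx
    | zero => exact ⟨0, by rw [map_zero, zero_mul, zero_mul]⟩
    | add x y _ _ hx hy =>
      obtain ⟨r, e⟩ := hx
      obtain ⟨r', e'⟩ := hy
      exact ⟨r + r', by rw [map_add, map_add, add_mul, add_mul, e, e']⟩
    | smul c x _ hx =>
      obtain ⟨r, e⟩ := hx
      exact ⟨c * r, by rw [smul_eq_mul, map_mul, map_mul, mul_assoc, e, mul_assoc]⟩
  refine ⟨t₀ * t₁, fun h => (hq.mem_or_mem h).elim ht₀ ht₁, fun q' hq' ht f => ?_⟩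
  have ht₀' : t₀ ∉ q' := fun h => ht (q'.mul_mem_right t₁ h)
  have ht₁' : t₁ ∉ q' := fun h => ht (q'.mul_mem_left t₀ h)
  have hregπ : Reg q' π := ⟨r₀, t₀, ht₀', e₀⟩
  have h1 : algebraMap R F t₁ ≠ 0 := algebraMap_ne_zero_of_notMem ht₁'
  -- every element of `Q` is a multiple of `π` at `q'`
  have hQmul : ∀ x ∈ Q, ∃ a : F, Reg q' a ∧ algebraMap R F x = a * π := by
    intro x hx
    obtain ⟨r, e⟩ := hall x hx
    refine ⟨algebraMap R F r / algebraMap R F t₁,
      Reg.div (hq := hq') (reg_algebraMap (hq := hq') r) ht₁', ?_⟩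
    field_simp
    exact e
  constructor
  · rintro ⟨⟨r, s, hs, e⟩, hnu⟩
    have hs0 : algebraMap R F s ≠ 0 := algebraMap_ne_zero_of_notMem hs
    by_cases hQq' : Q ≤ q'
    · have hrQ : r ∈ Q := by
        by_contra h
        exact hnu hQq' ((isU_iff_of_eq (fun h' => hs (hQq' h')) e).2 h)
      obtain ⟨a, ha, ea⟩ := hQmul r hrQ
      refine ⟨a / algebraMap R F s, Reg.div (hq := hq') ha hs, ?_⟩
      have : f = algebraMap R F r / algebraMap R F s := by
        rw [← e]
        field_simp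
      rw [this, ea]
      ring
    · obtain ⟨x, hxQ, hxq'⟩ := Set.not_subset.1 hQq'
      obtain ⟨a, ha, ea⟩ := hQmul x hxQ
      have hx0 : algebraMap R F x ≠ 0 := algebraMap_ne_zero_of_notMem hxq'
      have hπ0 : π ≠ 0 := by
        rintro rfl
        rw [mul_zero] at ea
        exact hx0 ea
      have ha0 : a ≠ 0 := by
        rintro rfl
        rw [zero_mul] at ea
        exact hx0 ea
      have hinv : Reg q' π⁻¹ := by
        have : π⁻¹ = a / algebraMap R F x := by
          rw [ea]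
          field_simp
        rw [this]
        exact Reg.div (hq := hq') ha hxq'
      refine ⟨f * π⁻¹, Reg.mul (hq := hq') ⟨r, s, hs, e⟩ hinv, ?_⟩
      rw [mul_assoc, inv_mul_cancel₀ hπ0, mul_one]
  · rintro ⟨a, ha, rfl⟩
    refine ⟨Reg.mul (hq := hq') ha hregπ, fun hQq' hu => ?_⟩
    obtain ⟨r, s, hs, e⟩ := ha
    have h5 : a * π * algebraMap R F (s * t₀) = algebraMap R F (r * r₀) := by
      rw [map_mul, map_mul, ← e, ← e₀]
      ring
    have hst : s * t₀ ∉ q' := fun h => (hq'.mem_or_mem h).elim hs ht₀'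
    exact (isU_iff_of_eq (fun h => hst (hQq' h)) h5).1 hu (Q.mul_mem_left r hr₀Q)

/-- **Local principality of a prime divisor.**  `R` a noetherian domain whose localisations at
maximal ideals have principal height-one primes, `Q` a prime of height one.  Every prime `q`
has a basic open neighbourhood `D(t)` on which the ideal sheaf of `V(Q)` is generated by one
element `π` of the fraction field. -/
theorem exists_local_generator [IsNoetherianRing R] (Q : Ideal R) [hQp : Q.IsPrime]
    (hQ : Q.height = 1)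
    (hprin : ∀ m : Ideal R, ∀ _ : m.IsMaximal, ∀ P : Ideal (Localization.AtPrime m),
      P.IsPrime → P.height = 1 → Submodule.IsPrincipal P)
    (q : Ideal R) [hq : q.IsPrime] :
    ∃ π : F, π ≠ 0 ∧ ∃ t : R, t ∉ q ∧ ∀ q' : Ideal R, q'.IsPrime → t ∉ q' → ∀ f : F,
      (Reg q' f ∧ (Q ≤ q' → ¬ IsU Q f)) ↔ ∃ a : F, Reg q' a ∧ f = a * π := by
  obtain ⟨m, hm, hqm⟩ := Ideal.exists_le_maximal q hq.ne_top
  have : m.IsPrime := hm.isPrime
  by_cases hQm : Q ≤ m
  · obtain ⟨π, hπ0, hπ⟩ := exists_generator (F := F) (q := m) Q hQm hQ (hprin m hm)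
    obtain ⟨t, ht, h⟩ := exists_spread (q := m) Q hQm π hπ
    exact ⟨π, hπ0, t, fun h' => ht (hqm h'), h⟩
  · obtain ⟨t, htQ, htm⟩ := Set.not_subset.1 hQm
    refine ⟨1, one_ne_zero, t, fun h' => htm (hqm h'), fun q' hq' ht f => ?_⟩
    have hQq' : ¬ Q ≤ q' := fun h => ht (h htQ)
    constructor
    · rintro ⟨hf, -⟩
      exact ⟨f, hf, (mul_one f).symm⟩
    · rintro ⟨a, ha, rfl⟩
      rw [mul_one]
      exact ⟨ha, fun h => absurd h hQq'⟩

end Alg

end Fermat.Agent.S26.H926.Bd
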