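import Fermat.Agent.S26.H926.AmpleSpan
import Fermat.Agent.S26.H926.BdAlg

/-!
# Row S26, block AMPLE, leaf BOUNDARY: the chart dictionary (helper926)

`X` an integral scheme, `W` an affine open, `R = Γ(X, W)`.  For `x ∈ W` with prime `q_x ⊆ R`:
`InO x f ↔ Reg q_x f`, `Triv x f ↔ IsU q_x f`, `z ⤳ y ↔ q_z ≤ q_y`, `y ∈ D(t) ↔ t ∉ q_y`.

Main result `exists_local_generator_point`: on a locally noetherian integral scheme all of
whose points have affine neighbourhoods with "locally factorial" rings, the ideal sheaf of the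
closure of a point `z` of codimension one is locally principal.
-/

set_option autoImplicit false
set_option linter.unusedSectionVars false
set_option linter.style.haveILetI false
universe u

open CategoryTheory CategoryTheory.Limits AlgebraicGeometry TopologicalSpace

namespace Fermat.Agent.S26.H926.Bd

open Fermat.Agent.S26 Fermat.Agent.S26.H926.Ample

noncomputable section

variable {X : Scheme.{u}} [IsIntegral X] {W : X.Opens} (hW : IsAffineOpen W)

/-- The prime ideal of the point `x` in the affine chart `W`. -/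
def pr {x : X} (hx : x ∈ W) : Ideal Γ(X, W) := (hW.primeIdealOf ⟨x, hx⟩).asIdeal

instance pr_isPrime {x : X} (hx : x ∈ W) : (pr hW hx).IsPrime :=
  (hW.primeIdealOf ⟨x, hx⟩).isPrime

theorem eff_iff_inv {x : X} {f : X.functionField} : Eff x f ↔ f ≠ 0 ∧ InO x f⁻¹ :=
  ⟨fun h => ⟨h.ne_zero, h.inO_inv⟩, fun h => eff_of_inO_inv h.1 h.2⟩

theorem mem_span1_iff_inO {x : X} {π f : X.functionField} :
    f ∈ LS.span1 π x ↔ ∃ a : X.functionField, InO x a ∧ f = a * π := by
  rw [mem_span1_iff]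
  constructor
  · rintro ⟨c, rfl⟩
    exact ⟨algebraMap _ X.functionField c, inO_iff.2 ⟨c, rfl⟩, Algebra.smul_def c π⟩
  · rintro ⟨a, ha, rfl⟩
    obtain ⟨c, rfl⟩ := inO_iff.1 ha
    exact ⟨c, Algebra.smul_def c π⟩

variable [Nonempty W]

theorem inO_iff_reg {x : X} (hx : x ∈ W) (f : X.functionField) :
    InO x f ↔ Reg (pr hW hx) f := by
  letI := TopCat.Presheaf.algebra_section_stalk X.presheaf ⟨x, hx⟩
  haveI : IsLocalization.AtPrime (X.presheaf.stalk x) (pr hW hx) :=
    hW.isLocalization_stalk ⟨x, hx⟩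
  haveI : IsScalarTower Γ(X, W) (X.presheaf.stalk x) X.functionField :=
    functionField_isScalarTower X W ⟨x, hx⟩
  haveI := functionField_isFractionRing_of_isAffineOpen X W hW
  rw [inO_iff]
  constructor
  · rintro ⟨c, rfl⟩
    obtain ⟨r, t, rfl⟩ := IsLocalization.exists_mk'_eq (pr hW hx).primeCompl c
    refine ⟨r, t, t.2, ?_⟩
    rw [IsScalarTower.algebraMap_apply Γ(X, W) (X.presheaf.stalk x) X.functionField (t : Γ(X, W)),
      ← map_mul, IsLocalization.mk'_spec, ← IsScalarTower.algebraMap_apply]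
  · rintro ⟨r, t, ht, e⟩
    refine ⟨IsLocalization.mk' (X.presheaf.stalk x) r
      (⟨t, ht⟩ : (pr hW hx).primeCompl), ?_⟩
    have ht0 : algebraMap Γ(X, W) X.functionField t ≠ 0 := algebraMap_ne_zero_of_notMem ht
    apply mul_right_cancel₀ ht0
    rw [e, IsScalarTower.algebraMap_apply Γ(X, W) (X.presheaf.stalk x) X.functionField t,
      ← map_mul]
    have := IsLocalization.mk'_spec (X.presheaf.stalk x) r (⟨t, ht⟩ : (pr hW hx).primeCompl)
    rw [this, ← IsScalarTower.algebraMap_apply]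

theorem triv_iff_isU {x : X} (hx : x ∈ W) (f : X.functionField) :
    Triv x f ↔ IsU (pr hW hx) f := by
  haveI := functionField_isFractionRing_of_isAffineOpen X W hW
  rw [triv_iff, eff_iff_inv, isU_iff, inO_iff_reg hW hx, inO_iff_reg hW hx]
  tauto

omit [Nonempty W] in
theorem specializes_iff_le {z y : X} (hz : z ∈ W) (hy : y ∈ W) :
    z ⤳ y ↔ pr hW hz ≤ pr hW hy := by
  have h1 := hW.fromSpec_primeIdealOf ⟨z, hz⟩
  have h2 := hW.fromSpec_primeIdealOf ⟨y, hy⟩
  haveI := hW.isOpenImmersion_fromSpec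
  have h3 := hW.fromSpec.isOpenEmbedding.isInducing.specializes_iff
    (x := hW.primeIdealOf ⟨z, hz⟩) (y := hW.primeIdealOf ⟨y, hy⟩)
  rw [h1, h2] at h3
  rw [h3]
  exact (PrimeSpectrum.le_iff_specializes (hW.primeIdealOf ⟨z, hz⟩)
    (hW.primeIdealOf ⟨y, hy⟩)).symm

omit [Nonempty W] in
theorem mem_basicOpen_iff (t : Γ(X, W)) {y : X} (hy : y ∈ W) :
    y ∈ X.basicOpen t ↔ t ∉ pr hW hy := by
  have h2 := hW.fromSpec_primeIdealOf ⟨y, hy⟩
  have h3 : hW.primeIdealOf ⟨y, hy⟩ ∈ hW.fromSpec ⁻¹ᵁ X.basicOpen t ↔ y ∈ X.basicOpen t := by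
    change hW.fromSpec (hW.primeIdealOf ⟨y, hy⟩) ∈ X.basicOpen t ↔ _
    rw [h2]
  rw [← h3, hW.fromSpec_preimage_basicOpen]
  exact PrimeSpectrum.mem_basicOpen _ _

/-- The fractional ideal sheaf of the closure of `z` at `y` consists of `f ∈ O_y` which are
non-units at `z` (if `z ⤳ y`). -/
def InIdeal (z y : X) (f : X.functionField) : Prop :=
  InO y f ∧ (z ⤳ y → ¬ Triv z f)

/-- **Local principality of a prime divisor.** -/
theorem exists_local_generator_point [IsLocallyNoetherian X] (z : X)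
    (hz : ringKrullDim (X.presheaf.stalk z) = 1)
    (hufd : ∀ x : X, ∃ W : X.Opens, IsAffineOpen W ∧ x ∈ W ∧
      ∀ m : Ideal Γ(X, W), ∀ _ : m.IsMaximal, ∀ P : Ideal (Localization.AtPrime m),
        P.IsPrime → P.height = 1 → Submodule.IsPrincipal P)
    (x : X) :
    ∃ V : X.Opens, x ∈ V ∧ ∃ π : X.functionField, π ≠ 0 ∧
      ∀ y ∈ V, ∀ f : X.functionField, InIdeal z y f ↔ f ∈ LS.span1 π y := by
  obtain ⟨W, hW, hxW, hprin⟩ := hufd x
  haveI : Nonempty W := ⟨⟨x, hxW⟩⟩
  haveI := functionField_isFractionRing_of_isAffineOpen X W hW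
  haveI : IsNoetherianRing Γ(X, W) := IsLocallyNoetherian.component_noetherian ⟨W, hW⟩
  by_cases hzW : z ∈ W
  · -- the height of the prime of `z`
    have hQ : (pr hW hzW).height = 1 := by
      letI := TopCat.Presheaf.algebra_section_stalk X.presheaf ⟨z, hzW⟩
      haveI : IsLocalization.AtPrime (X.presheaf.stalk z) (pr hW hzW) :=
        hW.isLocalization_stalk ⟨z, hzW⟩
      have h := IsLocalization.AtPrime.ringKrullDim_eq_height (pr hW hzW) (X.presheaf.stalk z)
      rw [hz] at h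
      exact_mod_cast h.symm
    obtain ⟨π, hπ0, t, ht, h⟩ := exists_local_generator (F := X.functionField)
      (pr hW hzW) hQ hprin (pr hW hxW)
    refine ⟨X.basicOpen t, (mem_basicOpen_iff hW t hxW).2 ht, π, hπ0, fun y hy f => ?_⟩
    have hyW : y ∈ W := X.basicOpen_le t hy
    have h' := h (pr hW hyW) inferInstance ((mem_basicOpen_iff hW t hyW).1 hy) f
    rw [mem_span1_iff_inO, InIdeal, inO_iff_reg hW hyW, specializes_iff_le hW hzW hyW,
      triv_iff_isU hW hzW, h']
    constructor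
    · rintro ⟨a, ha, e⟩
      exact ⟨a, (inO_iff_reg hW hyW a).2 ha, e⟩
    · rintro ⟨a, ha, e⟩
      exact ⟨a, (inO_iff_reg hW hyW a).1 ha, e⟩
  · refine ⟨W, hxW, 1, one_ne_zero, fun y hy f => ?_⟩
    have hzy : ¬ z ⤳ y := fun h => hzW (h.mem_open W.isOpen hy)
    rw [InIdeal]
    constructor
    · rintro ⟨hf, -⟩
      exact hf
    · intro hf
      exact ⟨hf, fun h => absurd h hzy⟩

end

end Fermat.Agent.S26.H926.Bd
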