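import Fermat.Agent.S26.H926.BdChart
import Fermat.Agent.S26.H445.UFDSmooth
import Fermat.Agent.S26.H714.HartogsAffine

/-!
# Row S26, block AMPLE, leaf BOUNDARY: `Ample.Boundary K` (helper926)

The complement of a nonempty affine open `U` of an abelian variety `A` is the support of an
effective Cartier divisor.

* `exists_finset_maximal_points` (topology): in a noetherian sober space the complement of an
  open set has finitely many maximal points, and every point of the complement is a
  specialisation of one of them;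
* `exists_cdiv_of_finset` : finitely many locally principal prime divisors add up to a Cartier
  divisor `D` (`D.gen a = ∏ π_z(a)⁻¹`);
* Hartogs (`H714`): the maximal points of `A ∖ U` have codimension one;
* UFD (`H445`): the local rings of `A` at closed points are factorial, so prime divisors are
  locally principal (`BdChart.exists_local_generator_point`).
-/

set_option autoImplicit false
set_option linter.unusedSectionVars false
set_option linter.style.haveILetI false
universe u

open CategoryTheory CategoryTheory.Limits AlgebraicGeometry TopologicalSpace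

namespace Fermat.Agent.S26.H926.Bd

open Fermat.Agent.S26 Fermat.Agent.S26.H926.Ample

noncomputable section

/-! ## Topology -/

section Top

variable {α : Type*} [TopologicalSpace α] [NoetherianSpace α] [T0Space α] [QuasiSober α]

/-- The maximal points of the complement of an open subset of a noetherian sober space. -/
theorem exists_finset_maximal_points (U : Set α) (hU : IsOpen U) :
    ∃ M : Finset α, (∀ z ∈ M, z ∉ U ∧ ∀ y, y ⤳ z → y ∉ U → y = z) ∧
      ∀ a, a ∉ U → ∃ z ∈ M, z ⤳ a := by
  classical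
  obtain ⟨S, hSf, hSc, hSi, hSU⟩ :=
    NoetherianSpace.exists_finite_set_isClosed_irreducible hU.isClosed_compl
  have hgen : ∀ t : S, ∃ z, IsGenericPoint z (t : Set α) := fun t =>
    QuasiSober.sober (hSi t.1 t.2) (hSc t.1 t.2)
  choose g hg using hgen
  haveI : Finite S := hSf.to_subtype
  have hfin : (Set.range g).Finite := Set.finite_range g
  have p1 : ∀ z ∈ Set.range g, z ∉ U := by
    rintro _ ⟨t, rfl⟩ hz
    have h1 : g t ∈ (t : Set α) := (hg t).mem
    have h2 : g t ∈ Uᶜ := by
      rw [hSU]
      exact Set.mem_sUnion.2 ⟨t.1, t.2, h1⟩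
    exact h2 hz
  have p2 : ∀ a, a ∉ U → ∃ z ∈ Set.range g, z ⤳ a := by
    intro a ha
    have h2 : a ∈ Uᶜ := ha
    rw [hSU] at h2
    obtain ⟨t, ht, hat⟩ := Set.mem_sUnion.1 h2
    exact ⟨g ⟨t, ht⟩, ⟨_, rfl⟩, (hg ⟨t, ht⟩).specializes hat⟩
  refine ⟨hfin.toFinset.filter fun z => ∀ y, y ⤳ z → y ∉ U → y = z, ?_, ?_⟩
  · intro z hz
    rw [Finset.mem_filter, Set.Finite.mem_toFinset] at hz
    exact ⟨p1 z hz.1, hz.2⟩
  · intro a ha
    obtain ⟨z₀, hz₀, hz₀a⟩ := p2 a ha
    have hfin' : {z | z ∈ Set.range g ∧ z ⤳ a}.Finite := hfin.subset fun z hz => hz.1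
    obtain ⟨z, ⟨hzr, hza⟩, hzmax⟩ := hfin'.exists_maximalFor (fun z => closure ({z} : Set α)) _
      ⟨z₀, hz₀, hz₀a⟩
    refine ⟨z, ?_, hza⟩
    rw [Finset.mem_filter, Set.Finite.mem_toFinset]
    refine ⟨hzr, fun y hyz hyU => ?_⟩
    obtain ⟨z', hz', hz'y⟩ := p2 y hyU
    have h1 : z' ⤳ z := hz'y.trans hyz
    have h2 : closure ({z} : Set α) ≤ closure ({z'} : Set α) :=
      specializes_iff_closure_subset.1 h1
    have h3 : closure ({z'} : Set α) ≤ closure ({z} : Set α) :=
      hzmax ⟨hz', h1.trans hza⟩ h2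
    have h4 : z ⤳ z' := specializes_iff_closure_subset.2 h3
    exact (hyz.antisymm (h4.trans hz'y)).eq

end Top

/-! ## Sums of locally principal prime divisors -/

section CDiv

variable {X : Scheme.{u}} [IsIntegral X]

theorem span1_inv_congr {x : X} {f f' : X.functionField} (hf : f ≠ 0) (hf' : f' ≠ 0)
    (h : LS.span1 f x = LS.span1 f' x) : LS.span1 f⁻¹ x = LS.span1 f'⁻¹ x := by
  have h1 : Triv x (f / f') := by
    rw [triv_iff_span1_mul hf']
    rw [mul_div_cancel₀ f hf']
    exact h
  have h2 : Triv x (f' / f) := by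
    have := h1.inv
    rwa [inv_div] at this
  have h3 := (triv_iff_span1_mul (x := x) (inv_ne_zero hf')).1 h2
  have h4 : f'⁻¹ * (f' / f) = f⁻¹ := by
    field_simp
  rw [h4] at h3
  exact h3

theorem eff_prod {ι : Type*} (s : Finset ι) {x : X} (g : ι → X.functionField)
    (h : ∀ i ∈ s, Eff x (g i)) : Eff x (∏ i ∈ s, g i) := by
  classical
  induction s using Finset.induction_on with
  | empty => simpa using eff_one
  | insert i s hi ih =>
    rw [Finset.prod_insert hi]
    exact (h i (Finset.mem_insert_self i s)).mul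
      (ih fun j hj => h j (Finset.mem_insert_of_mem hj))

theorem triv_prod_iff {ι : Type*} (s : Finset ι) {x : X} (g : ι → X.functionField)
    (h : ∀ i ∈ s, Eff x (g i)) : Triv x (∏ i ∈ s, g i) ↔ ∀ i ∈ s, Triv x (g i) := by
  classical
  induction s using Finset.induction_on with
  | empty => simpa using triv_one
  | insert i s hi ih =>
    rw [Finset.prod_insert hi, triv_mul_iff (h i (Finset.mem_insert_self i s))
      (eff_prod s g fun j hj => h j (Finset.mem_insert_of_mem hj)),
      ih fun j hj => h j (Finset.mem_insert_of_mem hj), Finset.forall_mem_insert]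

theorem span1_prod_congr {ι : Type*} (s : Finset ι) {x : X} (g g' : ι → X.functionField)
    (h : ∀ i ∈ s, LS.span1 (g i) x = LS.span1 (g' i) x) :
    LS.span1 (∏ i ∈ s, g i) x = LS.span1 (∏ i ∈ s, g' i) x := by
  classical
  induction s using Finset.induction_on with
  | empty => simp
  | insert i s hi ih =>
    rw [Finset.prod_insert hi, Finset.prod_insert hi]
    exact span1_mul_congr (h i (Finset.mem_insert_self i s))
      (ih fun j hj => h j (Finset.mem_insert_of_mem hj))

/-- Finitely many locally principal prime divisors add up to an effective Cartier divisor whose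
support is the union of the closures of the given points. -/
theorem exists_cdiv_of_finset (M : Finset X)
    (hloc : ∀ z ∈ M, ∀ x : X, ∃ V : X.Opens, x ∈ V ∧ ∃ π : X.functionField, π ≠ 0 ∧
      ∀ y ∈ V, ∀ f : X.functionField, InIdeal z y f ↔ f ∈ LS.span1 π y) :
    ∃ D : CDiv X, (∀ a : X, (1 : X.functionField) ∈ LS.span1 (D.gen a) a) ∧
      ∀ a : X, Triv a (D.gen a) ↔ ∀ z ∈ M, ¬ z ⤳ a := by
  classical
  have hloc' : ∀ (z : {z // z ∈ M}) (x : X), ∃ V : X.Opens, x ∈ V ∧ ∃ π : X.functionField,
      π ≠ 0 ∧ ∀ y ∈ V, ∀ f : X.functionField, InIdeal z.1 y f ↔ f ∈ LS.span1 π y :=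
    fun z x => hloc z.1 z.2 x
  choose V hxV π hπ0 hπ using hloc'
  -- the local generators are regular
  have hin : ∀ (z : {z // z ∈ M}) (x : X), InIdeal z.1 x (π z x) := fun z x =>
    (hπ z x x (hxV z x) _).2 (self_mem_span1 _)
  have heff : ∀ (z : {z // z ∈ M}) (x : X), Eff x (π z x)⁻¹ := fun z x =>
    eff_of_inO_inv (inv_ne_zero (hπ0 z x)) (by rw [inv_inv]; exact (hin z x).1)
  -- comparison of two local generators
  have hcmp : ∀ (z : {z // z ∈ M}) (x y : X), y ∈ V z x →
      LS.span1 (π z y) y = LS.span1 (π z x) y := by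
    intro z x y hy
    ext f
    rw [← hπ z y y (hxV z y) f, ← hπ z x y hy f]
  -- a local generator is a unit exactly off the closure of `z`
  have htriv : ∀ (z : {z // z ∈ M}) (x : X), Triv x (π z x)⁻¹ ↔ ¬ z.1 ⤳ x := by
    intro z x
    constructor
    · intro h hzx
      have h1 : Triv x (π z x) := by
        have := h.inv
        rwa [inv_inv] at this
      have h2 : (1 : X.functionField) ∈ LS.span1 (π z x) x := (triv_iff.1 h1).2
      exact ((hπ z x x (hxV z x) 1).2 h2).2 hzx triv_one
    · intro hzx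
      have h1 : InIdeal z.1 x 1 := ⟨inO_one, fun h => absurd h hzx⟩
      have h2 : Eff x (π z x) := (hπ z x x (hxV z x) 1).1 h1
      exact (triv_iff.2 ⟨(hin z x).1, h2⟩).inv
  refine ⟨⟨fun a => ∏ z ∈ M.attach, (π z a)⁻¹, fun a => ?_, fun x => ?_⟩, fun a => ?_,
    fun a => ?_⟩
  · exact Finset.prod_ne_zero_iff.2 fun z _ => inv_ne_zero (hπ0 z a)
  · refine ⟨⟨⋂ z : {z // z ∈ M}, (V z x : Set X),
      isOpen_iInter_of_finite fun z => (V z x).isOpen⟩, Set.mem_iInter.2 fun z => hxV z x,
      fun y hy => ?_⟩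
    refine span1_prod_congr _ _ _ fun z _ => ?_
    exact span1_inv_congr (hπ0 z y) (hπ0 z x) (hcmp z x y (Set.mem_iInter.1 hy z))
  · exact eff_prod _ _ fun z _ => heff z a
  · change Triv a (∏ z ∈ M.attach, (π z a)⁻¹) ↔ _
    rw [triv_prod_iff _ _ fun z _ => heff z a]
    constructor
    · intro h z hz
      exact (htriv ⟨z, hz⟩ a).1 (h ⟨z, hz⟩ (Finset.mem_attach _ _))
    · intro h z _
      exact (htriv z a).2 (h z.1 z.2)

end CDiv

/-! ## Abelian varieties -/

section AbVar

variable {K : Type u} [Field K] [IsAlgClosed K]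

/-- The sections of a smooth `K`-scheme over an affine open form a smooth `K`-algebra. -/
theorem smooth_sections {A : Scheme.{u}} (f : A ⟶ Spec (CommRingCat.of K)) [Smooth f]
    {W : A.Opens} (hW : IsAffineOpen W) :
    (Spec.preimage (hW.fromSpec ≫ f)).hom.Smooth := by
  haveI := hW.isOpenImmersion_fromSpec
  rw [← HasRingHomProperty.Spec_iff (P := @Smooth), Spec.map_preimage]
  infer_instance

/-- The local rings of a smooth scheme over an algebraically closed field at the maximal ideals
of an affine chart have principal height-one primes. -/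
theorem isPrincipal_of_smooth {A : Scheme.{u}} (f : A ⟶ Spec (CommRingCat.of K)) [Smooth f]
    {W : A.Opens} (hW : IsAffineOpen W) (m : Ideal Γ(A, W)) (hm : m.IsMaximal)
    (P : Ideal (Localization.AtPrime m)) (hP : P.IsPrime) (h1 : P.height = 1) :
    Submodule.IsPrincipal P := by
  letI : Algebra K Γ(A, W) := (Spec.preimage (hW.fromSpec ≫ f)).hom.toAlgebra
  haveI : Algebra.Smooth K Γ(A, W) := smooth_sections f hW
  exact H445.isPrincipal_of_height_eq_one K Γ(A, W) m (Localization.AtPrime m) P h1

/-- A smooth integral scheme over an algebraically closed field is normal. -/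
theorem isIntegrallyClosed_stalk_of_smooth {A : Scheme.{u}} [IsIntegral A]
    (f : A ⟶ Spec (CommRingCat.of K)) [Smooth f] (z : A) :
    IsIntegrallyClosed (A.presheaf.stalk z) := by
  obtain ⟨_, ⟨W, hW : IsAffineOpen W, rfl⟩, hzW, -⟩ :=
    A.isBasis_affineOpens.exists_subset_of_mem_open (Set.mem_univ z) isOpen_univ
  haveI : Nonempty W := ⟨⟨z, hzW⟩⟩
  letI : Algebra K Γ(A, W) := (Spec.preimage (hW.fromSpec ≫ f)).hom.toAlgebra
  haveI : Algebra.Smooth K Γ(A, W) := smooth_sections f hW
  haveI : IsIntegrallyClosed Γ(A, W) := by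
    refine IsIntegrallyClosed.of_localization_maximal fun p _ hp => ?_
    obtain ⟨hdom, hufd⟩ :=
      H445.ufd_of_smooth_localization K Γ(A, W) p (Localization.AtPrime p)
    infer_instance
  exact H714.isIntegrallyClosed_stalk_of_isAffineOpen hW z hzW

/-- **AM2 (BOUNDARY).**  The complement of a nonempty affine open of an abelian variety is the
support of an effective Cartier divisor. -/
theorem boundary : Ample.Boundary K := by
  intro X _ U hU hne
  obtain ⟨a₀, ha₀⟩ := hne
  haveI : Nonempty U := ⟨⟨a₀, ha₀⟩⟩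
  haveI : IsProper X.str := X.bundle.proper
  haveI : Smooth X.str := X.bundle.smooth
  haveI : IsLocallyNoetherian X.A := LocallyOfFiniteType.isLocallyNoetherian X.str
  haveI : CompactSpace X.A := QuasiCompact.compactSpace_of_compactSpace X.str
  haveI : IsNoetherian X.A := {}
  obtain ⟨M, hM, hcov⟩ := exists_finset_maximal_points (U : Set X.A) U.isOpen
  have hufd : ∀ x : X.A, ∃ W : X.A.Opens, IsAffineOpen W ∧ x ∈ W ∧
      ∀ m : Ideal Γ(X.A, W), ∀ _ : m.IsMaximal, ∀ P : Ideal (Localization.AtPrime m),
        P.IsPrime → P.height = 1 → Submodule.IsPrincipal P := by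
    intro x
    obtain ⟨_, ⟨W, hW : IsAffineOpen W, rfl⟩, hxW, -⟩ :=
      X.A.isBasis_affineOpens.exists_subset_of_mem_open (Set.mem_univ x) isOpen_univ
    exact ⟨W, hW, hxW, fun m hm P hP h1 => isPrincipal_of_smooth X.str hW m hm P hP h1⟩
  have hloc : ∀ z ∈ M, ∀ x : X.A, ∃ V : X.A.Opens, x ∈ V ∧ ∃ π : X.A.functionField, π ≠ 0 ∧
      ∀ y ∈ V, ∀ f : X.A.functionField, InIdeal z y f ↔ f ∈ LS.span1 π y := by
    intro z hz x
    have hdim : ringKrullDim (X.A.presheaf.stalk z) = 1 :=
      H714.ringKrullDim_stalk_eq_one_of_isAffineOpen_over X.str hU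
        (isIntegrallyClosed_stalk_of_smooth X.str z) (hM z hz).1 (hM z hz).2
    exact exists_local_generator_point z hdim hufd x
  obtain ⟨D, hD1, hD2⟩ := exists_cdiv_of_finset M hloc
  refine ⟨D, hD1, fun a => ?_⟩
  rw [hD2]
  constructor
  · intro ha z hz hza
    exact (hM z hz).1 (hza.mem_open U.isOpen ha)
  · intro h
    by_contra ha
    obtain ⟨z, hz, hza⟩ := hcov a ha
    exact h z hz hza

end AbVar

end

end Fermat.Agent.S26.H926.Bd
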